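import Mathlib.RingTheory.MvPolynomial.Basic
import Mathlib.Algebra.MvPolynomial.PDeriv
import Mathlib.Data.Real.Basic
import Mathlib.Algebra.Order.BigOperators.Group.LocallyFinite
import Mathlib.Tactic

/-!
# Product functionals and the powers of the Vandermonde product
-/

set_option autoImplicit false

noncomputable section

namespace FA.SelbergIntegral

open Finset MvPolynomial

variable {n : ℕ}

/-- The functional `x ^ m ↦ ∏ i, w i (m i)`. -/
def prodMap (w : Fin n → ℕ → ℝ) : MvPolynomial (Fin n) ℝ →ₗ[ℝ] ℝ :=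
  (basisMonomials (Fin n) ℝ).constr ℝ fun m => ∏ i, w i (m i)

theorem prodMap_monomial (w : Fin n → ℕ → ℝ) (m : Fin n →₀ ℕ) (r : ℝ) :
    prodMap w (monomial m r) = r * ∏ i, w i (m i) := by
  have h := (basisMonomials (Fin n) ℝ).constr_basis ℝ (fun m => ∏ i, w i (m i)) m
  rw [coe_basisMonomials] at h
  rw [show monomial m r = r • monomial m (1 : ℝ) by simp [smul_monomial], map_smul, smul_eq_mul]
  exact congrArg (r * ·) h

theorem prodMap_eq_sum (w : Fin n → ℕ → ℝ) (f : MvPolynomial (Fin n) ℝ) :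
    prodMap w f = ∑ m ∈ f.support, coeff m f * ∏ i, w i (m i) := by
  conv_lhs => rw [f.as_sum]
  rw [map_sum]
  exact sum_congr rfl fun m _ => prodMap_monomial w m _

theorem prodMap_C_mul (w : Fin n → ℕ → ℝ) (c : ℝ) (f : MvPolynomial (Fin n) ℝ) :
    prodMap w (C c * f) = c * prodMap w f := by
  rw [C_mul', map_smul, smul_eq_mul]

theorem prodMap_rename (w : Fin n → ℕ → ℝ) (σ : Equiv.Perm (Fin n))
    (f : MvPolynomial (Fin n) ℝ) : prodMap w (rename σ f) = prodMap (w ∘ σ) f := by
  induction f using MvPolynomial.induction_on' with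
  | monomial m r =>
    rw [rename_monomial, prodMap_monomial, prodMap_monomial, ← Equiv.prod_comp σ]
    simp [Finsupp.mapDomain_apply σ.injective]
  | add p q hp hq => simp [map_add, hp, hq]

/-- The shift of a functional by the product of all variables. -/
theorem prodMap_prod_X_pow_mul (w : Fin n → ℕ → ℝ) (d : ℕ) (f : MvPolynomial (Fin n) ℝ) :
    prodMap w ((∏ i, X i) ^ d * f) = prodMap (fun i m => w i (m + d)) f := by
  induction f using MvPolynomial.induction_on' with
  | monomial m r =>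
    have e : (∏ i, (X i : MvPolynomial (Fin n) ℝ)) ^ d =
        monomial (∑ i, Finsupp.single i d) 1 := by
      rw [← prod_pow, monomial_sum_one]
      exact prod_congr rfl fun i _ => X_pow_eq_monomial
    rw [e, monomial_mul, one_mul, prodMap_monomial, prodMap_monomial]
    simp [Finsupp.add_apply, Finsupp.finsetSum_apply, Finsupp.single_apply, add_comm]
  | add p q hp hq => simp [mul_add, map_add, hp, hq]

theorem prodMap_smul_weight (w : Fin n → ℕ → ℝ) (c : ℝ) (f : MvPolynomial (Fin n) ℝ) :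
    prodMap (fun i m => c * w i m) f = c ^ n * prodMap w f := by
  rw [prodMap_eq_sum, prodMap_eq_sum, mul_sum]
  refine sum_congr rfl fun m _ => ?_
  rw [prod_mul_distrib, prod_const, card_univ, Fintype.card_fin]
  ring

theorem prodMap_congr {w v : Fin n → ℕ → ℝ} (h : ∀ i m, w i m = v i m)
    (f : MvPolynomial (Fin n) ℝ) : prodMap w f = prodMap v f := by
  rw [show w = v from funext fun i => funext (h i)]

/-- The pairs of distinct indices. -/
def pairSet (n : ℕ) : Finset (Fin n × Fin n) := (univ : Finset (Fin n)).offDiag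

theorem mem_pairSet {p : Fin n × Fin n} : p ∈ pairSet n ↔ p.1 ≠ p.2 := by simp [pairSet]

/-- `∏ (x i - x j)` over the ordered pairs. -/
def pairProd (n : ℕ) : MvPolynomial (Fin n) ℝ := ∏ p ∈ pairSet n, (X p.1 - X p.2)

/-- `∏_{i < j} (x i - x j) ^ (2 k)`. -/
def vandPow (n k : ℕ) : MvPolynomial (Fin n) ℝ :=
  C ((-1) ^ (k * n.choose 2)) * pairProd n ^ k

theorem vandPow_eq (n k : ℕ) :
    vandPow n k = ∏ i : Fin n, ∏ j ∈ Ioi i, (X i - X j) ^ (2 * k) := by
  have hoff : pairProd n = ∏ i : Fin n, ∏ j ∈ ({i}ᶜ : Finset (Fin n)), (X i - X j) := by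
    rw [pairProd, ← prod_finset_product' (pairSet n) univ (fun i => ({i}ᶜ : Finset (Fin n)))
      (fun p => by simp [mem_pairSet, eq_comm]) (f := fun a b => X a - X b)]
  have hpairs : pairProd n = C ((-1 : ℝ) ^ n.choose 2) *
      ∏ i : Fin n, ∏ j ∈ Ioi i, (X i - X j) ^ 2 := by
    have hc : ∏ i : Fin n, ∏ _j ∈ Ioi i, (-1 : MvPolynomial (Fin n) ℝ) =
        (-1) ^ (n.choose 2) := by
      simp only [prod_const, Fin.card_Ioi, prod_pow_eq_pow_sum]
      congr 1
      rw [Fin.sum_univ_eq_sum_range (fun i => n - 1 - i), sum_range_reflect (fun i => i),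
        Finset.sum_range_id, Nat.choose_two_right]
    rw [map_pow, map_neg, map_one, ← hc, hoff, ← prod_mul_distrib]
    simp only [← prod_mul_distrib]
    rw [← prod_prod_Ioi_mul_eq_prod_prod_off_diag
      (fun a b : Fin n => (X b - X a : MvPolynomial (Fin n) ℝ))]
    exact prod_congr rfl fun i _ => prod_congr rfl fun j _ => by ring
  rw [vandPow, hpairs, mul_pow, ← map_pow, ← pow_mul, ← mul_assoc, ← map_mul, mul_comm k,
    ← pow_add, ← two_mul, pow_mul (-1 : ℝ) 2, neg_one_sq, one_pow, map_one, one_mul]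
  simp [← prod_pow, ← pow_mul]

theorem rename_pairProd (σ : Equiv.Perm (Fin n)) : rename σ (pairProd n) = pairProd n := by
  rw [pairProd, map_prod]
  simp only [map_sub, rename_X]
  refine prod_nbij' (fun p => (σ p.1, σ p.2)) (fun p => (σ.symm p.1, σ.symm p.2)) ?_ ?_ ?_ ?_ ?_
  all_goals intro p hp
  all_goals simp_all [mem_pairSet]

theorem rename_vandPow (σ : Equiv.Perm (Fin n)) (k : ℕ) :
    rename σ (vandPow n k) = vandPow n k := by
  rw [vandPow, map_mul, rename_C, map_pow (rename σ), rename_pairProd]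

/-- `vandPow` divided by `x a - x b`. -/
def vandQuot (k : ℕ) (a b : Fin n) : MvPolynomial (Fin n) ℝ :=
  C ((-1) ^ (k * n.choose 2)) * pairProd n ^ (k - 1) *
    ∏ p ∈ (pairSet n).erase (a, b), (X p.1 - X p.2)

theorem sub_mul_vandQuot {k : ℕ} (hk : k ≠ 0) {a b : Fin n} (hab : a ≠ b) :
    (X a - X b) * vandQuot k a b = vandPow n k := by
  have h : (X a - X b) * ∏ p ∈ (pairSet n).erase (a, b), (X p.1 - X p.2) = pairProd n :=
    mul_prod_erase (pairSet n) (fun p => (X p.1 - X p.2 : MvPolynomial (Fin n) ℝ))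
      (mem_pairSet.2 hab : (a, b) ∈ pairSet n)
  obtain ⟨j, rfl⟩ := Nat.exists_eq_succ_of_ne_zero hk
  rw [vandQuot, vandPow, Nat.succ_sub_one, pow_succ (pairProd n) j]
  linear_combination C ((-1 : ℝ) ^ ((j + 1) * n.choose 2)) * pairProd n ^ j * h

theorem rename_swap_vandQuot {k : ℕ} (hk : k ≠ 0) {a b : Fin n} (hab : a ≠ b) :
    rename (Equiv.swap a b) (vandQuot k a b) = -vandQuot k a b := by
  have h := congrArg (rename (Equiv.swap a b)) (sub_mul_vandQuot hk hab)
  rw [map_mul, map_sub, rename_X, rename_X, Equiv.swap_apply_left, Equiv.swap_apply_right,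
    rename_vandPow, ← sub_mul_vandQuot hk hab] at h
  have hne : (X a - X b : MvPolynomial (Fin n) ℝ) ≠ 0 :=
    sub_ne_zero.2 fun he => hab (X_injective he)
  refine mul_left_cancel₀ hne ?_
  linear_combination -h

theorem pderiv_finsetProd {κ : Type*} [DecidableEq κ] (a : Fin n) (s : Finset κ)
    (f : κ → MvPolynomial (Fin n) ℝ) :
    pderiv a (∏ p ∈ s, f p) = ∑ p ∈ s, (∏ p' ∈ s.erase p, f p') * pderiv a (f p) := by
  induction s using Finset.induction with
  | empty => simp
  | insert x t hx ih =>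
    rw [prod_insert hx, pderiv_mul, ih, sum_insert hx, erase_insert hx, mul_sum]
    congr 1
    · ring
    refine sum_congr rfl fun p hp => ?_
    rw [erase_insert_of_ne (ne_of_mem_of_not_mem hp hx).symm,
      prod_insert (fun h => hx (mem_of_mem_erase h))]
    ring

/-- **The derivative.** -/
theorem pderiv_vandPow (k : ℕ) (a : Fin n) :
    pderiv a (vandPow n k) = C (2 * k : ℝ) * ∑ b ∈ univ.erase a, vandQuot k a b := by
  have h1 : pderiv a (pairProd n) =
      ∑ b ∈ univ.erase a, C 2 * ∏ p ∈ (pairSet n).erase (a, b), (X p.1 - X p.2) := by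
    rw [pairProd, pderiv_finsetProd]
    simp only [map_sub, pderiv_X, mul_sub, sum_sub_distrib]
    have e1 : ∀ g : Fin n × Fin n → MvPolynomial (Fin n) ℝ,
        ∑ p ∈ pairSet n, g p * Pi.single (M := fun _ => MvPolynomial (Fin n) ℝ) a 1 p.1 =
          ∑ b ∈ univ.erase a, g (a, b) := fun g => by
      rw [sum_finset_product' (pairSet n) univ (fun i => univ.erase i)
        (fun p => by simp [mem_pairSet, eq_comm])
        (f := fun x y => g (x, y) * Pi.single (M := fun _ => MvPolynomial (Fin n) ℝ) a 1 x)]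
      rw [sum_eq_single a (fun b _ hb => by simp [hb.symm]) (fun h => absurd (mem_univ a) h)]
      simp
    have e2 : ∀ g : Fin n × Fin n → MvPolynomial (Fin n) ℝ,
        ∑ p ∈ pairSet n, g p * Pi.single (M := fun _ => MvPolynomial (Fin n) ℝ) a 1 p.2 =
          ∑ b ∈ univ.erase a, g (b, a) := fun g => by
      refine Eq.trans ?_ (e1 fun p => g p.swap)
      refine sum_nbij' Prod.swap Prod.swap ?_ ?_ ?_ ?_ ?_
      all_goals intro p hp
      all_goals simp_all [mem_pairSet, eq_comm]
    rw [e1, e2, ← sum_sub_distrib]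
    refine sum_congr rfl fun b hb => ?_
    have hab : a ≠ b := (ne_of_mem_erase hb).symm
    have hne : (X a - X b : MvPolynomial (Fin n) ℝ) ≠ 0 :=
      sub_ne_zero.2 fun he => hab (X_injective he)
    have h1 := mul_prod_erase (pairSet n) (fun p => (X p.1 - X p.2 : MvPolynomial (Fin n) ℝ))
      (mem_pairSet.2 hab : (a, b) ∈ pairSet n)
    have h2 := mul_prod_erase (pairSet n) (fun p => (X p.1 - X p.2 : MvPolynomial (Fin n) ℝ))
      (mem_pairSet.2 hab.symm : (b, a) ∈ pairSet n)
    refine mul_left_cancel₀ hne ?_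
    rw [show (C 2 : MvPolynomial (Fin n) ℝ) = 2 from map_ofNat _ 2]
    linear_combination -h1 + h2
  rw [vandPow, pderiv_C_mul, pderiv_pow, h1]
  simp only [vandQuot, mul_sum]
  refine sum_congr rfl fun b _ => ?_
  rw [map_mul, map_natCast, show (C 2 : MvPolynomial (Fin n) ℝ) = 2 from map_ofNat _ 2]
  ring

/-- Two vanishing exponents. -/
theorem coeff_vandPow_eq_zero {k : ℕ} (hk : k ≠ 0) {m : Fin n →₀ ℕ} {a b : Fin n} (hab : a ≠ b)
    (ha : m a = 0) (hb : m b = 0) : coeff m (vandPow n k) = 0 := by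
  classical
  rw [← sub_mul_vandQuot hk hab, sub_mul, coeff_sub, coeff_X_mul', coeff_X_mul',
    if_neg (by simpa using ha), if_neg (by simpa using hb), sub_zero]

end FA.SelbergIntegral
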