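import Fermat.Agent.SelbergIntegral.Main
import Mathlib.Probability.Distributions.Beta
import Mathlib.MeasureTheory.Integral.Pi
import Mathlib.MeasureTheory.Measure.Lebesgue.Basic

/-!
# The functional as an integral over the cube
-/

set_option autoImplicit false

noncomputable section

namespace FA.SelbergIntegral

open Finset MvPolynomial MeasureTheory ProbabilityTheory

variable {n k r : ℕ} {α β : ℝ}

theorem gamma_add_natCast {a : ℝ} (ha : 0 < a) (m : ℕ) :
    Real.Gamma (a + m) = rise a m * Real.Gamma a := by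
  induction m with
  | zero => simp [rise_zero]
  | succ m ih =>
    rw [Nat.cast_succ, ← add_assoc, Real.Gamma_add_one (by positivity), ih, rise_succ]
    ring

theorem beta_moment (hα : 0 < α) (hβ : 0 < β) (m : ℕ) :
    beta (α + m) β = moment α β m * beta α β := by
  rw [beta, beta, moment, gamma_add_natCast hα, add_right_comm, gamma_add_natCast (by positivity)]
  ring

theorem beta_density (hα : 0 < α) (hβ : 0 < β) :
    IntegrableOn (fun x : ℝ => x ^ (α - 1) * (1 - x) ^ (β - 1)) (Set.Ioo 0 1) ∧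
      ∫ x in Set.Ioo (0 : ℝ) 1, x ^ (α - 1) * (1 - x) ^ (β - 1) = beta α β := by
  have hc : IntegrableOn (fun x : ℝ => (x : ℂ) ^ ((α : ℂ) - 1) * (1 - (x : ℂ)) ^ ((β : ℂ) - 1))
      (Set.Ioo 0 1) :=
    ((intervalIntegrable_iff_integrableOn_Ioc_of_le zero_le_one).1
      (Complex.betaIntegral_convergent (u := α) (v := β) (by simpa) (by simpa))).mono_set
      Set.Ioo_subset_Ioc_self
  have he : Set.EqOn (fun x : ℝ => (x : ℂ) ^ ((α : ℂ) - 1) * (1 - (x : ℂ)) ^ ((β : ℂ) - 1))
      (fun x => ((x ^ (α - 1) * (1 - x) ^ (β - 1) : ℝ) : ℂ)) (Set.Ioo 0 1) := fun x hx => by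
    simp only [Complex.ofReal_mul]
    rw [Complex.ofReal_cpow hx.1.le, Complex.ofReal_cpow (sub_nonneg.2 hx.2.le)]
    push_cast
    ring
  refine ⟨?_, ?_⟩
  · exact IntegrableOn.congr_fun (hc.re) (fun x hx => by
      exact (congrArg Complex.re (he hx)).trans (Complex.ofReal_re _)) measurableSet_Ioo
  · rw [beta_eq_betaIntegralReal α β hα hβ, Complex.betaIntegral,
      intervalIntegral.integral_of_le zero_le_one, integral_Ioc_eq_integral_Ioo,
      setIntegral_congr_fun measurableSet_Ioo he, integral_complex_ofReal, Complex.ofReal_re]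

theorem beta_density_pow (hα : 0 < α) (hβ : 0 < β) (m : ℕ) :
    IntegrableOn (fun x : ℝ => x ^ m * (x ^ (α - 1) * (1 - x) ^ (β - 1))) (Set.Ioo 0 1) ∧
      ∫ x in Set.Ioo (0 : ℝ) 1, x ^ m * (x ^ (α - 1) * (1 - x) ^ (β - 1)) =
        moment α β m * beta α β := by
  obtain ⟨h1, h2⟩ := beta_density (α := α + m) (by positivity) hβ
  have he : Set.EqOn (fun x : ℝ => x ^ (α + m - 1) * (1 - x) ^ (β - 1))
      (fun x => x ^ m * (x ^ (α - 1) * (1 - x) ^ (β - 1))) (Set.Ioo 0 1) := fun x hx => by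
    simp only
    rw [← mul_assoc, ← Real.rpow_natCast x m, ← Real.rpow_add hx.1]
    ring_nf
  exact ⟨h1.congr_fun he measurableSet_Ioo,
    by rw [← setIntegral_congr_fun measurableSet_Ioo he, h2, beta_moment hα hβ]⟩

theorem integral_eval (hα : 0 < α) (hβ : 0 < β) (p : MvPolynomial (Fin n) ℝ) :
    Integrable (fun x : Fin n → ℝ => eval x p * ∏ i, x i ^ (α - 1) * (1 - x i) ^ (β - 1))
        (Measure.pi fun _ => volume.restrict (Set.Ioo 0 1)) ∧
      ∫ x : Fin n → ℝ, eval x p * ∏ i, x i ^ (α - 1) * (1 - x i) ^ (β - 1)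
        ∂(Measure.pi fun _ => volume.restrict (Set.Ioo 0 1)) =
          betaMap n α β p * beta α β ^ n := by
  induction p using MvPolynomial.induction_on' with
  | monomial m a =>
    have e : (fun x : Fin n → ℝ =>
        eval x (monomial m a) * ∏ i, x i ^ (α - 1) * (1 - x i) ^ (β - 1)) =
        fun x => a * ∏ i, x i ^ m i * (x i ^ (α - 1) * (1 - x i) ^ (β - 1)) := by
      funext x
      rw [eval_monomial, Finsupp.prod_fintype _ _ (fun i => pow_zero _), mul_assoc,
        ← prod_mul_distrib]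
    rw [e]
    refine ⟨(Integrable.fintype_prod (f := fun i t => t ^ m i * (t ^ (α - 1) * (1 - t) ^ (β - 1)))
      fun i => (beta_density_pow hα hβ (m i)).1).const_mul a, ?_⟩
    rw [integral_const_mul,
      integral_fintype_prod_eq_prod (μ := fun _ => volume.restrict (Set.Ioo 0 1))
      (f := fun i (t : ℝ) => t ^ m i * (t ^ (α - 1) * (1 - t) ^ (β - 1))),
      prod_congr rfl fun i _ => (beta_density_pow hα hβ (m i)).2, betaMap, prodMap_monomial,
      prod_mul_distrib, prod_const, card_univ, Fintype.card_fin, mul_assoc]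
  | add p q hp hq =>
    simp only [map_add, add_mul]
    exact ⟨hp.1.add hq.1, by rw [integral_add hp.1 hq.1, hp.2, hq.2]⟩

theorem cube_measure (n : ℕ) :
    volume.restrict (Set.Icc (0 : Fin n → ℝ) 1) =
      Measure.pi fun _ => volume.restrict (Set.Ioo 0 1) := by
  rw [← Measure.restrict_pi_pi, ← volume_pi]
  refine Measure.restrict_congr_set ?_
  rw [volume_pi]
  exact (Measure.univ_pi_Ioo_ae_eq_Icc (μ := fun _ : Fin n => (volume : Measure ℝ))
    (f := fun _ => 0) (g := fun _ => 1)).symm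

theorem eval_vandPow (n k : ℕ) (x : Fin n → ℝ) :
    eval x (vandPow n k) = |∏ i : Fin n, ∏ j ∈ Ioi i, (x i - x j)| ^ (2 * k) := by
  rw [(even_two_mul k).pow_abs, vandPow_eq]
  simp [← prod_pow]

theorem cube_integral (hα : 0 < α) (hβ : 0 < β) (p : MvPolynomial (Fin n) ℝ) :
    ∫ x in Set.Icc (0 : Fin n → ℝ) 1, eval x p * ∏ i, x i ^ (α - 1) * (1 - x i) ^ (β - 1) =
      betaMap n α β p * beta α β ^ n := by
  rw [cube_measure, (integral_eval hα hβ p).2]

theorem selbergForm_gamma (hα : 0 < α) (hβ : 0 < β) :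
    selbergForm n k α β * beta α β ^ n = ∏ j ∈ range n,
      Real.Gamma (α + j * k) * Real.Gamma (β + j * k) * Real.Gamma (1 + (j + 1) * k) /
        (Real.Gamma (α + β + (n + j - 1 : ℕ) * k) * Real.Gamma (1 + k)) := by
  rw [selbergForm, pow_eq_prod_const, ← prod_mul_distrib]
  refine prod_congr rfl fun j _ => ?_
  have h1 := gamma_add_natCast hα (j * k)
  have h2 := gamma_add_natCast hβ (j * k)
  have h3 := gamma_add_natCast (add_pos hα hβ) ((n + j - 1) * k)
  have h4 := gamma_add_natCast one_pos ((j + 1) * k)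
  have h5 := gamma_add_natCast one_pos k
  simp only [Nat.cast_mul, Nat.cast_add, Nat.cast_one, rise_one, Real.Gamma_one, mul_one]
    at h1 h2 h3 h4 h5
  rw [h1, h2, h3, h4, h5, beta]
  ring

end FA.SelbergIntegral
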