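import Fermat.Agent.SelbergIntegral.Recursion
import Mathlib.Algebra.Polynomial.Roots
import Mathlib.Topology.Algebra.Polynomial
import Mathlib.Topology.Algebra.Order.Field
import Mathlib.Analysis.Real.Sqrt

/-!
# The evaluation of the moments

Aomoto's recursion gives the dependence on `α` up to a periodic factor, which is rational and
so constant; its value comes from `α → 0` and induction on the number of variables.
-/

set_option autoImplicit false

noncomputable section

namespace FA.SelbergIntegral

open Finset MvPolynomial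

variable {n l k : ℕ} {α β : ℝ}

theorem rise_one (m : ℕ) : rise 1 m = (m.factorial : ℝ) := by
  induction m with
  | zero => simp [rise_zero]
  | succ m ih => rw [rise_succ, ih, Nat.factorial_succ]; push_cast; ring

/-- The closed form. -/
def selbergForm (n k : ℕ) (α β : ℝ) : ℝ :=
  ∏ j ∈ range n, rise α (j * k) * rise β (j * k) * ((j + 1) * k).factorial /
    (rise (α + β) ((n + j - 1) * k) * k.factorial)

theorem selbergForm_pos (hα : 0 < α) (hβ : 0 < β) : 0 < selbergForm n k α β :=
  prod_pos fun j _ => by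
    have h1 := rise_pos hα (j * k)
    have h2 := rise_pos hβ (j * k)
    have h3 := rise_pos (add_pos hα hβ) ((n + j - 1) * k)
    positivity

theorem betaMap_one (n : ℕ) (α β : ℝ) : betaMap n α β 1 = 1 := by
  rw [show (1 : MvPolynomial (Fin n) ℝ) = monomial 0 1 by simp, betaMap, prodMap_monomial]
  simp [moment, rise_zero]

theorem aomotoValue_zero (n k : ℕ) (α β : ℝ) :
    aomotoValue n k 0 α β = betaMap n α β (vandPow n k) := by
  simp [aomotoValue, firstProd]

/-- The factor of `r` steps of the recursion. -/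
def aomotoRatio (n k r : ℕ) (α β : ℝ) : ℝ :=
  ∏ i ∈ range r, (α + ((n - 1 - i) * k : ℕ)) / (α + β + (((n - 1 - i) + (n - 1)) * k : ℕ))

theorem aomotoValue_eq (hα : 0 < α) (hβ : 0 < β) {r : ℕ} (hr : r ≤ n) :
    aomotoValue n k r α β = aomotoRatio n k r α β * betaMap n α β (vandPow n k) := by
  induction r with
  | zero => simp [aomotoRatio, aomotoValue_zero]
  | succ r ih =>
    have h := aomotoValue_succ (k := k) hα hβ (Nat.lt_of_succ_le hr)
    rw [ih (Nat.le_of_succ_le hr)] at h
    have hne : α + β + ((((n - 1 - r) + (n - 1)) * k : ℕ) : ℝ) ≠ 0 := by positivity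
    rw [aomotoRatio, prod_range_succ, ← aomotoRatio]
    rw [mul_comm (aomotoRatio n k r α β), div_mul_eq_mul_div, div_mul_eq_mul_div, eq_div_iff hne]
    linear_combination h

theorem moment_succ' (α β : ℝ) (m : ℕ) :
    moment α β (m + 1) = α / (α + β) * moment (α + 1) β m := by
  rw [moment, moment, rise_succ', rise_succ', div_mul_div_comm, add_right_comm α β]

theorem aomotoValue_top (n k : ℕ) (α β : ℝ) :
    aomotoValue n k n α β = (α / (α + β)) ^ n * betaMap n (α + 1) β (vandPow n k) := by
  have e : firstProd n n = (∏ i : Fin n, X i) ^ 1 := by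
    rw [pow_one, firstProd]
    exact prod_congr (filter_true_of_mem fun i _ => i.isLt) fun _ _ => rfl
  rw [aomotoValue, e, betaMap, prodMap_prod_X_pow_mul, betaMap, ← prodMap_smul_weight]
  exact prodMap_congr (fun i m => moment_succ' α β m) _

theorem betaMap_shift (hα : 0 < α) (hβ : 0 < β) :
    (α / (α + β)) ^ n * betaMap n (α + 1) β (vandPow n k) =
      aomotoRatio n k n α β * betaMap n α β (vandPow n k) := by
  rw [← aomotoValue_top, aomotoValue_eq hα hβ le_rfl]

theorem selbergForm_shift (hα : 0 < α) (hβ : 0 < β) :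
    (α / (α + β)) ^ n * selbergForm n k (α + 1) β =
      aomotoRatio n k n α β * selbergForm n k α β := by
  have e : aomotoRatio n k n α β =
      ∏ j ∈ range n, (α + (j * k : ℕ)) / (α + β + ((n + j - 1) * k : ℕ)) := by
    rw [aomotoRatio, ← prod_range_reflect]
    refine prod_congr rfl fun j hj => ?_
    have := mem_range.1 hj
    rw [show n - 1 - (n - 1 - j) = j by omega, show j + (n - 1) = n + j - 1 by omega]
  rw [e, selbergForm, selbergForm, pow_eq_prod_const, ← prod_mul_distrib, ← prod_mul_distrib]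
  refine prod_congr rfl fun j _ => ?_
  have h1 := rise_succ' α (j * k)
  have h2 := rise_succ' (α + β) ((n + j - 1) * k)
  rw [rise_succ] at h1 h2
  have hab : (0 : ℝ) < α + β := add_pos hα hβ
  have r1 := rise_pos hab ((n + j - 1) * k)
  have r2 : 0 < rise (α + β + 1) ((n + j - 1) * k) := rise_pos (by linarith) _
  have d1 : (0 : ℝ) < α + β + ((n + j - 1) * k : ℕ) := by positivity
  have kf : (0 : ℝ) < k.factorial := by positivity
  rw [add_right_comm α 1 β]
  rw [div_mul_div_comm, div_mul_div_comm, div_eq_div_iff (by positivity) (by positivity)]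
  linear_combination (-(rise β (j * k) * ((j + 1) * k).factorial * k.factorial *
      (rise (α + β) ((n + j - 1) * k) * (α + β + ((n + j - 1) * k : ℕ))))) * h1 +
    (rise β (j * k) * ((j + 1) * k).factorial * k.factorial *
      (rise α (j * k) * (α + (j * k : ℕ)))) * h2

/-- Rational on the positive reals. -/
def IsRatFun (f : ℝ → ℝ) : Prop :=
  ∃ p q : Polynomial ℝ, ∀ x : ℝ, 0 < x → q.eval x ≠ 0 ∧ f x = p.eval x / q.eval x

theorem isRatFun_const (c : ℝ) : IsRatFun fun _ => c :=
  ⟨Polynomial.C c, 1, fun x _ => by simp⟩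

theorem isRatFun_id_add (c : ℝ) : IsRatFun fun x => x + c :=
  ⟨Polynomial.X + Polynomial.C c, 1, fun x _ => by simp⟩

theorem IsRatFun.mul' {f g : ℝ → ℝ} (hf : IsRatFun f) (hg : IsRatFun g) :
    IsRatFun fun x => f x * g x := by
  obtain ⟨p, q, h⟩ := hf
  obtain ⟨p', q', h'⟩ := hg
  exact ⟨p * p', q * q', fun x hx => by
    simp [(h x hx).1, (h' x hx).1, (h x hx).2, (h' x hx).2, div_mul_div_comm]⟩

theorem IsRatFun.add' {f g : ℝ → ℝ} (hf : IsRatFun f) (hg : IsRatFun g) :
    IsRatFun fun x => f x + g x := by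
  obtain ⟨p, q, h⟩ := hf
  obtain ⟨p', q', h'⟩ := hg
  exact ⟨p * q' + q * p', q * q', fun x hx => by
    simp [(h x hx).1, (h' x hx).1, (h x hx).2, (h' x hx).2, div_add_div]⟩

theorem IsRatFun.div' {f g : ℝ → ℝ} (hf : IsRatFun f) (hg : IsRatFun g)
    (h0 : ∀ x, 0 < x → g x ≠ 0) : IsRatFun fun x => f x / g x := by
  obtain ⟨p, q, h⟩ := hf
  obtain ⟨p', q', h'⟩ := hg
  refine ⟨p * q', q * p', fun x hx => ?_⟩
  have hp' : p'.eval x ≠ 0 := fun e => h0 x hx (by rw [(h' x hx).2, e, zero_div])
  simp [(h x hx).1, hp', (h x hx).2, (h' x hx).2, div_div_div_eq]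

theorem isRatFun_prod {ι : Type*} (s : Finset ι) (f : ι → ℝ → ℝ) (h : ∀ i ∈ s, IsRatFun (f i)) :
    IsRatFun fun x => ∏ i ∈ s, f i x := by
  induction s using Finset.cons_induction with
  | empty => simpa using isRatFun_const 1
  | cons a t ha ih =>
    simp only [prod_cons]
    exact (h a (mem_cons_self a t)).mul' (ih fun i hi => h i (mem_cons_of_mem hi))

theorem isRatFun_sum {ι : Type*} (s : Finset ι) (f : ι → ℝ → ℝ) (h : ∀ i ∈ s, IsRatFun (f i)) :
    IsRatFun fun x => ∑ i ∈ s, f i x := by
  induction s using Finset.cons_induction with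
  | empty => simpa using isRatFun_const 0
  | cons a t ha ih =>
    simp only [sum_cons]
    exact (h a (mem_cons_self a t)).add' (ih fun i hi => h i (mem_cons_of_mem hi))

theorem isRatFun_rise (c : ℝ) (m : ℕ) : IsRatFun fun x => rise (x + c) m := by
  simp only [rise, add_assoc]
  exact isRatFun_prod _ _ fun i _ => isRatFun_id_add _

theorem isRatFun_selbergForm (hβ : 0 < β) : IsRatFun fun x => selbergForm n k x β := by
  unfold selbergForm
  refine isRatFun_prod _ _ fun j _ => IsRatFun.div' ?_ ?_ fun x hx => ?_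
  · have h := isRatFun_rise 0 (j * k)
    simp only [add_zero] at h
    exact (h.mul' (isRatFun_const _)).mul' (isRatFun_const _)
  · exact (isRatFun_rise β _).mul' (isRatFun_const _)
  · have := rise_pos (add_pos hx hβ) ((n + j - 1) * k)
    positivity

theorem isRatFun_betaMap (hβ : 0 < β) (f : MvPolynomial (Fin n) ℝ) :
    IsRatFun fun x => betaMap n x β f := by
  simp only [betaMap, prodMap_eq_sum]
  refine isRatFun_sum _ _ fun m _ => (isRatFun_const _).mul' (isRatFun_prod _ _ fun i _ => ?_)
  have h := isRatFun_rise 0 (m i)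
  simp only [add_zero] at h
  exact h.div' (isRatFun_rise β _) fun x hx => (rise_pos (add_pos hx hβ) _).ne'

/-- A periodic rational function is constant. -/
theorem IsRatFun.eq_one_of_periodic {f : ℝ → ℝ} (hf : IsRatFun f)
    (hper : ∀ x, 0 < x → f (x + 1) = f x) {x : ℝ} (hx : 0 < x) : f x = f 1 := by
  obtain ⟨p, q, h⟩ := hf
  have hN : ∀ N : ℕ, f (1 + N) = f 1 := by
    intro N
    induction N with
    | zero => simp
    | succ N ih => rw [Nat.cast_succ, ← add_assoc, hper _ (by positivity), ih]
  have hz : p - Polynomial.C (f 1) * q = 0 := by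
    refine Polynomial.eq_zero_of_infinite_isRoot _ ((Set.infinite_range_of_injective
      (f := fun N : ℕ => (1 + N : ℝ)) fun a b hab => by simpa using hab).mono ?_)
    rintro _ ⟨N, rfl⟩
    obtain ⟨h1, h2⟩ := h (1 + N) (by positivity)
    rw [hN, eq_div_iff h1] at h2
    simp [h2]
  rw [(h x hx).2, sub_eq_zero.1 hz, Polynomial.eval_mul, Polynomial.eval_C,
    mul_div_assoc, div_self (h x hx).1, mul_one]

theorem exists_factor (hβ : 0 < β) :
    ∃ c : ℝ, ∀ x, 0 < x → betaMap n x β (vandPow n k) = c * selbergForm n k x β := by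
  have hr : IsRatFun fun x => betaMap n x β (vandPow n k) / selbergForm n k x β :=
    (isRatFun_betaMap hβ _).div' (isRatFun_selbergForm hβ) fun x hx => (selbergForm_pos hx hβ).ne'
  refine ⟨betaMap n 1 β (vandPow n k) / selbergForm n k 1 β, fun x hx => ?_⟩
  rw [← hr.eq_one_of_periodic (x := x) (fun y hy => ?_) hx,
    div_mul_cancel₀ _ (selbergForm_pos hx hβ).ne']
  have hy1 : 0 < y + 1 := by linarith
  rw [div_eq_div_iff (selbergForm_pos hy1 hβ).ne' (selbergForm_pos hy hβ).ne']
  refine mul_left_cancel₀ (pow_ne_zero n (div_pos hy (add_pos hy hβ)).ne') ?_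
  linear_combination selbergForm n k y β * betaMap_shift (n := n) (k := k) hy hβ -
    betaMap n y β (vandPow n k) * selbergForm_shift (n := n) (k := k) hy hβ

/-- `moment α β m / α` for `m > 0`. -/
def momentRest (α β : ℝ) : ℕ → ℝ
  | 0 => 0
  | m + 1 => rise (α + 1) m / rise (α + β) (m + 1)

theorem moment_eq_mul_momentRest (α β : ℝ) {m : ℕ} (hm : m ≠ 0) :
    moment α β m = α * momentRest α β m := by
  obtain ⟨j, rfl⟩ := Nat.exists_eq_succ_of_ne_zero hm
  rw [moment, momentRest, rise_succ', mul_div_assoc]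

theorem continuousAt_momentRest (hβ : 0 < β) (m : ℕ) :
    ContinuousAt (fun x => momentRest x β m) 0 := by
  cases m with
  | zero => exact continuousAt_const
  | succ j =>
    have hc : ∀ (c : ℝ) (i : ℕ), Continuous fun x => rise (x + c) i := fun c i => by
      unfold rise; fun_prop
    exact (hc 1 j).continuousAt.div (hc β (j + 1)).continuousAt
      (by rw [zero_add]; exact (rise_pos hβ _).ne')

/-- The weights with exponent zero at `i`. -/
def zeroAt (α β : ℝ) (i j : Fin n) (m : ℕ) : ℝ :=
  if j = i then (if m = 0 then 1 else 0) else momentRest α β m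

theorem continuousAt_prodMap (w : ℝ → Fin n → ℕ → ℝ) (f : MvPolynomial (Fin n) ℝ)
    (h : ∀ i m, ContinuousAt (fun x => w x i m) 0) : ContinuousAt (fun x => prodMap (w x) f) 0 := by
  simp only [prodMap_eq_sum]
  exact tendsto_finsetSum _ fun m _ => (tendsto_finsetProd _ fun i _ => h i (m i)).const_mul _

theorem betaMap_vandPow_split (hk : k ≠ 0) (α β : ℝ) :
    betaMap (l + 1) α β (vandPow (l + 1) k) = α ^ l *
      (((l : ℝ) + 1) * prodMap (zeroAt α β 0) (vandPow (l + 1) k) +
        α * prodMap (fun _ => momentRest α β) (vandPow (l + 1) k)) := by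
  have hsym : ∀ i : Fin (l + 1), prodMap (zeroAt α β i) (vandPow (l + 1) k) =
      prodMap (zeroAt α β 0) (vandPow (l + 1) k) := fun i => by
    conv_lhs => rw [← rename_vandPow (Equiv.swap 0 i) k, prodMap_rename]
    refine prodMap_congr (fun j m => ?_) _
    simp only [Function.comp_apply, zeroAt]
    congr 1
    rw [eq_iff_iff, Equiv.swap_apply_eq_iff, Equiv.swap_apply_right]
  have hn : ((l : ℝ) + 1) * prodMap (zeroAt α β 0) (vandPow (l + 1) k) =
      ∑ i : Fin (l + 1), prodMap (zeroAt α β i) (vandPow (l + 1) k) := by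
    rw [sum_congr rfl fun i _ => hsym i, sum_const, card_univ, Fintype.card_fin, nsmul_eq_mul]
    push_cast; ring
  rw [hn, betaMap]
  simp only [prodMap_eq_sum]
  rw [sum_comm, mul_sum _ _ α, ← sum_add_distrib, mul_sum]
  refine sum_congr rfl fun m hm => ?_
  rw [mem_support_iff] at hm
  rw [← mul_sum]
  by_cases hz : ∃ a, m a = 0
  · obtain ⟨a, ha⟩ := hz
    have hpos : ∀ b, b ≠ a → m b ≠ 0 := fun b hb h0 =>
      hm (coeff_vandPow_eq_zero hk hb h0 ha)
    have e1 : ∏ i, momentRest α β (m i) = 0 := prod_eq_zero (mem_univ a) (by simp [ha, momentRest])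
    have e2 : ∑ i, ∏ j, zeroAt α β i j (m j) = ∏ j ∈ univ.erase a, momentRest α β (m j) := by
      rw [sum_eq_single a (fun b _ hb => prod_eq_zero (mem_univ b)
        (by simp [zeroAt, hpos b hb])) (fun h => absurd (mem_univ a) h),
        ← mul_prod_erase univ _ (mem_univ a)]
      simp only [zeroAt, ha, ↓reduceIte, one_mul]
      exact prod_congr rfl fun j hj => if_neg (ne_of_mem_erase hj)
    rw [e1, e2, ← mul_prod_erase univ _ (mem_univ a), ha,
      prod_congr rfl fun j hj => moment_eq_mul_momentRest α β (hpos j (ne_of_mem_erase hj)),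
      prod_mul_distrib, prod_const, card_erase_of_mem (mem_univ a), card_univ, Fintype.card_fin]
    simp [moment, rise_zero]
    ring
  · push Not at hz
    have e2 : ∑ i, ∏ j, zeroAt α β i j (m j) = 0 :=
      sum_eq_zero fun i _ => prod_eq_zero (mem_univ i) (by simp [zeroAt, hz i])
    rw [e2, prod_congr rfl fun j _ => moment_eq_mul_momentRest α β (hz j), prod_mul_distrib,
      prod_const, card_univ, Fintype.card_fin, pow_succ]
    ring

/-- `selbergForm / α ^ l` for `l + 1` variables. -/
def selbergRest (l k : ℕ) (α β : ℝ) : ℝ :=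
  (rise (α + β) (l * k))⁻¹ * ∏ j ∈ range l,
    rise (α + 1) ((j + 1) * k - 1) * rise β ((j + 1) * k) * ((j + 2) * k).factorial /
      (rise (α + β) ((l + j + 1) * k) * k.factorial)

theorem selbergForm_split (hk : k ≠ 0) (α β : ℝ) :
    selbergForm (l + 1) k α β = α ^ l * selbergRest l k α β := by
  rw [selbergForm, selbergRest, prod_range_succ', pow_eq_prod_const, mul_left_comm,
    ← prod_mul_distrib]
  have hkf : (k.factorial : ℝ) ≠ 0 := by positivity
  rw [mul_comm]
  congr 1
  · simp [rise_zero]
    field_simp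
  · refine prod_congr rfl fun j _ => ?_
    obtain ⟨i, hi⟩ : ∃ i, (j + 1) * k = i + 1 :=
      Nat.exists_eq_succ_of_ne_zero (Nat.mul_ne_zero (Nat.succ_ne_zero j) hk)
    rw [show l + 1 + (j + 1) - 1 = l + j + 1 by omega, hi, rise_succ' α, Nat.add_sub_cancel]
    ring

theorem continuousAt_selbergRest (hβ : 0 < β) :
    ContinuousAt (fun x => selbergRest l k x β) 0 := by
  have hc : ∀ (c : ℝ) (i : ℕ), Continuous fun x => rise (x + c) i := fun c i => by
    unfold rise; fun_prop
  refine ((hc β _).continuousAt.inv₀ (by rw [zero_add]; exact (rise_pos hβ _).ne')).mul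
    (tendsto_finsetProd _ fun j _ => ?_)
  refine (((hc 1 _).continuousAt.mul continuousAt_const).mul continuousAt_const).div
    ((hc β _).continuousAt.mul continuousAt_const) ?_
  rw [zero_add]
  have := rise_pos hβ ((l + j + 1) * k)
  positivity

/-- Setting the first variable to zero. -/
theorem prodMap_zeroAt (β : ℝ) (f : MvPolynomial (Fin (l + 1)) ℝ) :
    prodMap (zeroAt 0 β 0) f = prodMap (fun _ => momentRest 0 β)
      (aeval (Fin.cons 0 X : Fin (l + 1) → MvPolynomial (Fin l) ℝ) f) := by
  induction f using MvPolynomial.induction_on' with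
  | monomial m r =>
    rw [aeval_monomial, Finsupp.prod_fintype _ _ (fun i => pow_zero _), Fin.prod_univ_succ,
      prodMap_monomial, Fin.prod_univ_succ]
    simp only [Fin.cons_zero, Fin.cons_succ, zeroAt, ↓reduceIte, Fin.succ_ne_zero]
    by_cases h0 : m 0 = 0
    · have e : ∏ i : Fin l, (X i : MvPolynomial (Fin l) ℝ) ^ m i.succ =
          monomial (∑ i : Fin l, Finsupp.single i (m i.succ)) 1 := by
        rw [monomial_sum_one]
        exact prod_congr rfl fun i _ => X_pow_eq_monomial
      rw [h0, pow_zero, one_mul, e, algebraMap_eq, prodMap_C_mul, prodMap_monomial]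
      simp [Finsupp.finsetSum_apply, Finsupp.single_apply]
    · rw [zero_pow h0, if_neg h0]
      simp
  | add p q hp hq => simp only [map_add, hp, hq]

theorem aeval_cons_vandPow (l k : ℕ) :
    aeval (Fin.cons 0 X : Fin (l + 1) → MvPolynomial (Fin l) ℝ) (vandPow (l + 1) k) =
      (∏ i, X i) ^ (2 * k) * vandPow l k := by
  rw [vandPow_eq, vandPow_eq]
  simp only [map_prod, map_pow, map_sub, aeval_X]
  rw [Fin.prod_univ_succ, Fin.prod_Ioi_zero, ← prod_pow]
  simp only [Fin.prod_Ioi_succ, Fin.cons_zero, Fin.cons_succ, zero_sub,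
    Even.neg_pow (even_two_mul k)]

theorem momentRest_add {s : ℕ} (β : ℝ) (m : ℕ) :
    momentRest 0 β (m + (s + 1)) =
      (s.factorial : ℝ) / rise β (s + 1) * moment ((s + 1 : ℕ) : ℝ) β m := by
  rw [show m + (s + 1) = (s + m) + 1 by ring, momentRest, zero_add, zero_add, moment,
    show s + m + 1 = s + 1 + m by ring, rise_add, rise_add, rise_one, div_mul_div_comm]
  push_cast
  rw [add_comm (1 : ℝ), add_comm β]

theorem factorial_identity (hk : k ≠ 0) (β : ℝ) (l : ℕ) :
    ∏ j ∈ range l, (((j + 1) * k - 1).factorial : ℝ) * rise β ((j + 1) * k) *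
        ((j + 2) * k).factorial =
      ((l : ℝ) + 1) * rise β (l * k) * ∏ j ∈ range l, (((j + 2) * k - 1).factorial : ℝ) *
        rise β (j * k) * ((j + 1) * k).factorial := by
  induction l with
  | zero => simp [rise_zero]
  | succ l ih =>
    rw [prod_range_succ, prod_range_succ, ih]
    obtain ⟨i, hi⟩ : ∃ i, (l + 1) * k = i + 1 :=
      Nat.exists_eq_succ_of_ne_zero (Nat.mul_ne_zero (Nat.succ_ne_zero l) hk)
    obtain ⟨i', hi'⟩ : ∃ i, (l + 2) * k = i + 1 :=
      Nat.exists_eq_succ_of_ne_zero (Nat.mul_ne_zero (Nat.succ_ne_zero _) hk)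
    have c1 : ((l : ℝ) + 1) * k = i + 1 := by exact_mod_cast hi
    have c2 : ((l : ℝ) + 2) * k = i' + 1 := by exact_mod_cast hi'
    rw [hi, hi', Nat.add_sub_cancel, Nat.add_sub_cancel, Nat.factorial_succ, Nat.factorial_succ]
    push_cast
    rw [← c1, ← c2]
    ring

theorem selbergRest_zero (hk : k ≠ 0) (hβ : 0 < β) {s : ℕ} (hs : 2 * k = s + 1) (l : ℕ) :
    selbergRest l k 0 β = ((l : ℝ) + 1) *
      (((s.factorial : ℝ) / rise β (s + 1)) ^ l * selbergForm l k ((s + 1 : ℕ) : ℝ) β) := by
  have hR : ∀ m, rise β m ≠ 0 := fun m => (rise_pos hβ m).ne'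
  have hterm : ∀ j, (s.factorial : ℝ) / rise β (s + 1) *
      (rise ((s + 1 : ℕ) : ℝ) (j * k) * rise β (j * k) * ((j + 1) * k).factorial /
        (rise (((s + 1 : ℕ) : ℝ) + β) ((l + j - 1) * k) * k.factorial)) =
      ((s + j * k).factorial : ℝ) * rise β (j * k) * ((j + 1) * k).factorial /
        (rise β (s + 1 + (l + j - 1) * k) * k.factorial) := fun j => by
    rw [div_mul_div_comm, rise_add β (s + 1), ← rise_one (s + j * k), rise_add 1 s, rise_one]
    push_cast
    rw [add_comm (1 : ℝ), add_comm β]
    ring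
  rw [selbergRest, selbergForm, pow_eq_prod_const, ← prod_mul_distrib,
    prod_congr rfl fun j _ => hterm j, zero_add, zero_add, prod_div_distrib, prod_div_distrib,
    prod_congr rfl fun j _ => by rw [rise_one], factorial_identity hk β l,
    prod_congr (s₁ := range l) rfl fun j hj => show ((s + j * k).factorial : ℝ) * rise β (j * k) *
      ((j + 1) * k).factorial = (((j + 2) * k - 1).factorial : ℝ) * rise β (j * k) *
        ((j + 1) * k).factorial by rw [show (j + 2) * k - 1 = s + j * k by rw [add_mul]; omega]]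
  have hden : ∏ j ∈ range l, rise β (s + 1 + (l + j - 1) * k) * (k.factorial : ℝ) =
      ∏ j ∈ range l, rise β ((l + j + 1) * k) * (k.factorial : ℝ) := by
    refine prod_congr rfl fun j hj => ?_
    have := mem_range.1 hj
    rw [← hs, ← add_mul, show 2 + (l + j - 1) = l + j + 1 by omega]
  rw [hden]
  field_simp [hR (l * k)]
  exact congrArg _ (prod_congr rfl fun j _ => mul_comm _ _)

/-- **Selberg's formula in moments.** -/
theorem betaMap_vandPow (n k : ℕ) {β : ℝ} (hβ : 0 < β) :
    ∀ {α : ℝ}, 0 < α → betaMap n α β (vandPow n k) = selbergForm n k α β := by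
  rcases eq_or_ne k 0 with rfl | hk
  · intro α _
    simp [vandPow, betaMap_one, selbergForm, rise_zero]
  induction n with
  | zero =>
    intro α _
    simp [vandPow, pairProd, pairSet, betaMap_one, selbergForm, Nat.choose]
  | succ l ih =>
    intro α hα
    obtain ⟨c, hc⟩ := exists_factor (n := l + 1) (k := k) hβ
    obtain ⟨s, hs⟩ : ∃ s, 2 * k = s + 1 := Nat.exists_eq_succ_of_ne_zero (by omega)
    have hlim : ((l : ℝ) + 1) * prodMap (zeroAt 0 β 0) (vandPow (l + 1) k) =
        c * selbergRest l k 0 β := by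
      have hz : ContinuousAt (fun x => ((l : ℝ) + 1) * prodMap (zeroAt x β 0) (vandPow (l + 1) k) +
          x * prodMap (fun _ => momentRest x β) (vandPow (l + 1) k)) 0 := by
        refine (continuousAt_const.mul (continuousAt_prodMap _ _ fun i m => ?_)).add
          (continuousAt_id.mul (continuousAt_prodMap _ _ fun i m => continuousAt_momentRest hβ m))
        by_cases hi : i = 0
        · simp only [zeroAt, if_pos hi]; exact continuousAt_const
        · simp only [zeroAt, if_neg hi]; exact continuousAt_momentRest hβ m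
      have h0 := tendsto_nhds_unique (l := nhdsWithin (0 : ℝ) (Set.Ioi 0))
        (hz.tendsto.mono_left nhdsWithin_le_nhds) (((continuousAt_const (y := c)).mul
          (continuousAt_selbergRest (l := l) (k := k) hβ)).tendsto.mono_left nhdsWithin_le_nhds
            |>.congr' ?_)
      · simpa using h0
      · filter_upwards [self_mem_nhdsWithin] with x (hx : 0 < x)
        have h := hc x hx
        rw [betaMap_vandPow_split hk, selbergForm_split hk, mul_left_comm c] at h
        exact (mul_left_cancel₀ (pow_ne_zero l hx.ne') h).symm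
    have hs1 : (0 : ℝ) < ((s + 1 : ℕ) : ℝ) := by positivity
    rw [prodMap_zeroAt, aeval_cons_vandPow, hs, prodMap_prod_X_pow_mul,
      prodMap_congr (fun i m => momentRest_add β m), prodMap_smul_weight, ← betaMap, ih hs1,
      selbergRest_zero hk hβ hs] at hlim
    have hne : ((l : ℝ) + 1) * (((s.factorial : ℝ) / rise β (s + 1)) ^ l *
        selbergForm l k ((s + 1 : ℕ) : ℝ) β) ≠ 0 := by
      have := selbergForm_pos (n := l) (k := k) hs1 hβ
      have := rise_pos hβ (s + 1)
      positivity
    rw [hc α hα, (mul_eq_right₀ hne).1 hlim.symm, one_mul]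

/-- **Aomoto's formula in moments.** -/
theorem aomotoValue_closed (hα : 0 < α) (hβ : 0 < β) {r : ℕ} (hr : r ≤ n) :
    aomotoValue n k r α β = aomotoRatio n k r α β * selbergForm n k α β := by
  rw [aomotoValue_eq hα hβ hr, betaMap_vandPow n k hβ hα]

end FA.SelbergIntegral
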