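import Fermat.Agent.SelbergIntegral.Functional

/-!
# Aomoto's recursion

The moments `(α)_m / (α + β)_m` of the beta law turn integration by parts into an identity of
linear functionals on polynomials.
-/

set_option autoImplicit false

noncomputable section

namespace FA.SelbergIntegral

open Finset MvPolynomial

variable {n : ℕ}

/-- `a (a + 1) ⋯ (a + m - 1)`. -/
def rise (a : ℝ) (m : ℕ) : ℝ := ∏ i ∈ range m, (a + i)

theorem rise_zero (a : ℝ) : rise a 0 = 1 := prod_range_zero _

theorem rise_succ (a : ℝ) (m : ℕ) : rise a (m + 1) = rise a m * (a + m) := prod_range_succ _ m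

theorem rise_succ' (a : ℝ) (m : ℕ) : rise a (m + 1) = a * rise (a + 1) m := by
  rw [rise, prod_range_succ', rise, mul_comm, Nat.cast_zero, add_zero]
  congr 1
  exact prod_congr rfl fun i _ => by push_cast; ring

theorem rise_add (a : ℝ) (m l : ℕ) : rise a (m + l) = rise a m * rise (a + m) l := by
  rw [rise, prod_range_add, rise, rise]
  congr 1
  exact prod_congr rfl fun i _ => by push_cast; ring

theorem rise_pos {a : ℝ} (ha : 0 < a) (m : ℕ) : 0 < rise a m :=
  prod_pos fun _ _ => by positivity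

/-- The moments of the beta law. -/
def moment (α β : ℝ) (m : ℕ) : ℝ := rise α m / rise (α + β) m

theorem moment_succ (α β : ℝ) {m : ℕ} (h : α + β + m ≠ 0) :
    (α + β + m) * moment α β (m + 1) = (α + m) * moment α β m := by
  rw [moment, moment, rise_succ, rise_succ, mul_comm (rise (α + β) m), ← div_div]
  field_simp

/-- The functional of `n` independent beta variables. -/
def betaMap (n : ℕ) (α β : ℝ) : MvPolynomial (Fin n) ℝ →ₗ[ℝ] ℝ :=
  prodMap fun _ => moment α β

theorem betaMap_rename (α β : ℝ) (σ : Equiv.Perm (Fin n)) (f : MvPolynomial (Fin n) ℝ) :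
    betaMap n α β (rename σ f) = betaMap n α β f :=
  prodMap_rename _ σ f

/-- **Integration by parts.** -/
theorem betaMap_parts {α β : ℝ} (hα : 0 < α) (hβ : 0 < β) (i : Fin n)
    (f : MvPolynomial (Fin n) ℝ) :
    betaMap n α β (C α * f + X i * pderiv i f) =
      betaMap n α β (C (α + β) * (X i * f) + X i * (X i * pderiv i f)) := by
  induction f using MvPolynomial.induction_on' with
  | monomial m r =>
    rw [X_mul_pderiv_monomial, X, monomial_mul, ← Nat.cast_smul_eq_nsmul ℝ,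
      smul_monomial, monomial_mul, C_mul_monomial, C_mul_monomial, map_add, map_add]
    simp only [betaMap, prodMap_monomial, one_mul, smul_eq_mul]
    rw [← mul_prod_erase univ _ (mem_univ i), ← mul_prod_erase univ (fun j : Fin n => moment α β
      ((Finsupp.single i 1 + m : Fin n →₀ ℕ) j)) (mem_univ i)]
    rw [prod_congr rfl fun j (hj : j ∈ univ.erase i) => show moment α β
      ((Finsupp.single i 1 + m : Fin n →₀ ℕ) j) = moment α β (m j) by
        simp [(ne_of_mem_erase hj).symm]]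
    simp only [Finsupp.add_apply, Finsupp.single_eq_same]
    rw [add_comm 1 (m i)]
    have h := moment_succ α β (m := m i) (by positivity)
    linear_combination (-(r * ∏ x ∈ univ.erase i, moment α β (m x))) * h
  | add p q hp hq =>
    simp only [mul_add, map_add] at hp hq ⊢
    linarith

/-- The product of the variables before `r`. -/
def firstProd (n r : ℕ) : MvPolynomial (Fin n) ℝ :=
  ∏ i ∈ univ.filter (fun i : Fin n => (i : ℕ) < r), X i

theorem firstProd_succ {r : ℕ} (hr : r < n) : firstProd n (r + 1) = X ⟨r, hr⟩ * firstProd n r := by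
  rw [firstProd, firstProd, ← prod_insert (by simp)]
  exact prod_congr (by ext; simp [Fin.ext_iff]; omega) fun _ _ => rfl

theorem rename_swap_prod {s : Finset (Fin n)} {a b : Fin n} (ha : a ∉ s) (hb : b ∉ s) :
    rename (Equiv.swap a b) (∏ i ∈ s, X i) = (∏ i ∈ s, X i : MvPolynomial (Fin n) ℝ) := by
  rw [map_prod]
  refine prod_congr rfl fun i hi => ?_
  rw [rename_X, Equiv.swap_apply_of_ne_of_ne (ne_of_mem_of_not_mem hi ha)
    (ne_of_mem_of_not_mem hi hb)]

theorem pderiv_firstProd {r : ℕ} {a : Fin n} (ha : r ≤ a) : pderiv a (firstProd n r) = 0 := by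
  rw [firstProd, pderiv_finsetProd]
  refine sum_eq_zero fun i hi => ?_
  rw [pderiv_X_of_ne (by intro h; rw [h] at hi; simp at hi; omega), mul_zero]

/-- The integrals with `r` extra factors. -/
def aomotoValue (n k r : ℕ) (α β : ℝ) : ℝ := betaMap n α β (firstProd n r * vandPow n k)

variable {k r : ℕ} {α β : ℝ} {b : Fin n}

theorem antisymmetric_zero (hk : k ≠ 0) (hr : r < n) (hb : (b : ℕ) < r) :
    betaMap n α β (firstProd n (r + 1) * vandQuot k ⟨r, hr⟩ b) = 0 := by
  have hne : (⟨r, hr⟩ : Fin n) ≠ b := fun h => by rw [← h] at hb; exact lt_irrefl _ hb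
  have hfix : rename (Equiv.swap ⟨r, hr⟩ b) (firstProd n (r + 1)) = firstProd n (r + 1) := by
    rw [firstProd, map_prod]
    simp only [rename_X]
    refine prod_nbij' (Equiv.swap ⟨r, hr⟩ b) (Equiv.swap ⟨r, hr⟩ b) ?_ ?_ ?_ ?_ ?_
    all_goals intro i hi
    all_goals simp only [mem_filter, mem_univ, true_and, Equiv.swap_apply_self] at hi ⊢
    all_goals rw [Equiv.swap_apply_def]
    all_goals split_ifs with h1 h2
    all_goals try subst h1
    all_goals try subst h2
    all_goals simp_all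
    all_goals omega
  have h := betaMap_rename α β (Equiv.swap ⟨r, hr⟩ b)
    (firstProd n (r + 1) * vandQuot k ⟨r, hr⟩ b)
  simp only [map_mul, hfix, rename_swap_vandQuot hk hne, mul_neg, map_neg] at h
  linarith

theorem half_value (hk : k ≠ 0) (hr : r < n) (hb : r < (b : ℕ)) :
    2 * betaMap n α β (firstProd n (r + 1) * vandQuot k ⟨r, hr⟩ b) = aomotoValue n k r α β := by
  have hne : (⟨r, hr⟩ : Fin n) ≠ b := fun h => by rw [← h] at hb; exact lt_irrefl _ hb
  have h := betaMap_rename α β (Equiv.swap ⟨r, hr⟩ b)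
    (firstProd n (r + 1) * vandQuot k ⟨r, hr⟩ b)
  rw [firstProd_succ hr] at h ⊢
  simp only [map_mul, rename_X, Equiv.swap_apply_left, rename_swap_vandQuot hk hne,
    show rename (Equiv.swap ⟨r, hr⟩ b) (firstProd n r) = firstProd n r from
      rename_swap_prod (by simp) (by simp; omega), mul_neg, map_neg] at h
  rw [aomotoValue, ← sub_mul_vandQuot hk hne, show firstProd n r *
    ((X ⟨r, hr⟩ - X b) * vandQuot k ⟨r, hr⟩ b) = X ⟨r, hr⟩ * firstProd n r * vandQuot k ⟨r, hr⟩ b -
      X b * firstProd n r * vandQuot k ⟨r, hr⟩ b by ring, map_sub]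
  linarith

theorem half_value_succ (hk : k ≠ 0) (hr : r < n) (hb : (b : ℕ) < r) :
    2 * betaMap n α β (X ⟨r, hr⟩ * (firstProd n (r + 1) * vandQuot k ⟨r, hr⟩ b)) =
      aomotoValue n k (r + 1) α β := by
  have hne : (⟨r, hr⟩ : Fin n) ≠ b := fun h => by rw [← h] at hb; exact lt_irrefl _ hb
  obtain ⟨Q, hQ, hQfix⟩ : ∃ Q, firstProd n (r + 1) = X ⟨r, hr⟩ * X b * Q ∧
      rename (Equiv.swap ⟨r, hr⟩ b) Q = Q := by
    refine ⟨∏ i ∈ (univ.filter fun i : Fin n => (i : ℕ) < r).erase b, X i, ?_,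
      rename_swap_prod (by simp) (by simp)⟩
    rw [firstProd_succ hr, firstProd, ← mul_prod_erase _ _
      (show b ∈ univ.filter fun i : Fin n => (i : ℕ) < r by simpa using hb), mul_assoc]
  have h := betaMap_rename α β (Equiv.swap ⟨r, hr⟩ b)
    (X ⟨r, hr⟩ * (firstProd n (r + 1) * vandQuot k ⟨r, hr⟩ b))
  rw [hQ] at h ⊢
  simp only [map_mul, rename_X, Equiv.swap_apply_left, Equiv.swap_apply_right, hQfix,
    rename_swap_vandQuot hk hne, mul_neg, map_neg] at h
  rw [aomotoValue, hQ, ← sub_mul_vandQuot hk hne, show X ⟨r, hr⟩ * X b * Q *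
    ((X ⟨r, hr⟩ - X b) * vandQuot k ⟨r, hr⟩ b) =
      X ⟨r, hr⟩ * (X ⟨r, hr⟩ * X b * Q * vandQuot k ⟨r, hr⟩ b) -
        X b * (X b * X ⟨r, hr⟩ * Q * vandQuot k ⟨r, hr⟩ b) by ring, map_sub]
  linarith

theorem full_value_succ (hk : k ≠ 0) (hr : r < n) (hb : r < (b : ℕ)) :
    betaMap n α β (X ⟨r, hr⟩ * (firstProd n (r + 1) * vandQuot k ⟨r, hr⟩ b)) =
      aomotoValue n k (r + 1) α β := by
  have hne : (⟨r, hr⟩ : Fin n) ≠ b := fun h => by rw [← h] at hb; exact lt_irrefl _ hb
  have hfix : rename (Equiv.swap ⟨r, hr⟩ b) (firstProd n r) = firstProd n r :=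
    rename_swap_prod (by simp) (by simp; omega)
  have h := betaMap_rename α β (Equiv.swap ⟨r, hr⟩ b)
    (X ⟨r, hr⟩ * (firstProd n (r + 1) * vandQuot k ⟨r, hr⟩ b))
  have h' := betaMap_rename α β (Equiv.swap ⟨r, hr⟩ b) (X b * firstProd n r * vandPow n k)
  rw [firstProd_succ hr] at h ⊢
  simp only [map_mul, rename_X, Equiv.swap_apply_left, hfix, rename_swap_vandQuot hk hne, mul_neg,
    map_neg] at h
  simp only [map_mul, rename_X, Equiv.swap_apply_right, hfix, rename_vandPow] at h'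
  rw [aomotoValue, firstProd_succ hr]
  have hsum : betaMap n α β (X ⟨r, hr⟩ * (X ⟨r, hr⟩ * firstProd n r * vandQuot k ⟨r, hr⟩ b)) -
      betaMap n α β (X b * (X b * firstProd n r * vandQuot k ⟨r, hr⟩ b)) =
      betaMap n α β (X ⟨r, hr⟩ * firstProd n r * vandPow n k) +
        betaMap n α β (X b * firstProd n r * vandPow n k) := by
    rw [← map_sub, ← map_add, ← sub_mul_vandQuot hk hne]
    congr 1
    ring
  linarith

/-- **Aomoto's recursion.** -/
theorem aomotoValue_succ (hα : 0 < α) (hβ : 0 < β) (hr : r < n) :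
    (α + β + (((n - 1 - r) + (n - 1)) * k : ℕ)) * aomotoValue n k (r + 1) α β =
      (α + ((n - 1 - r) * k : ℕ)) * aomotoValue n k r α β := by
  have h := betaMap_parts hα hβ ⟨r, hr⟩ (firstProd n r * vandPow n k)
  rw [pderiv_mul, pderiv_firstProd (by simp), zero_mul, zero_add, pderiv_vandPow] at h
  rw [show X ⟨r, hr⟩ * (firstProd n r * vandPow n k) = firstProd n (r + 1) * vandPow n k by
      rw [firstProd_succ hr]; ring,
    show X ⟨r, hr⟩ * (firstProd n r * (C (2 * k : ℝ) * ∑ c ∈ univ.erase ⟨r, hr⟩,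
        vandQuot k ⟨r, hr⟩ c)) = C (2 * k : ℝ) * ∑ c ∈ univ.erase ⟨r, hr⟩,
          firstProd n (r + 1) * vandQuot k ⟨r, hr⟩ c by
      rw [firstProd_succ hr]; simp only [mul_sum]
      exact sum_congr rfl fun c _ => by ring,
    mul_left_comm (X ⟨r, hr⟩ : MvPolynomial (Fin n) ℝ) (C (2 * k : ℝ)),
    mul_sum _ _ (X ⟨r, hr⟩ : MvPolynomial (Fin n) ℝ), map_add, map_add,
    betaMap, prodMap_C_mul, prodMap_C_mul, prodMap_C_mul, prodMap_C_mul, ← betaMap, map_sum,
    map_sum] at h
  rcases eq_or_ne k 0 with rfl | hk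
  · simp only [mul_zero, Nat.cast_zero, zero_mul, add_zero] at h ⊢
    rw [aomotoValue, aomotoValue]
    linarith
  have hsplit : (univ : Finset (Fin n)).erase ⟨r, hr⟩ = Iio ⟨r, hr⟩ ∪ Ioi ⟨r, hr⟩ := by
    ext; simp
  have hdisj : Disjoint (Iio (⟨r, hr⟩ : Fin n)) (Ioi ⟨r, hr⟩) :=
    disjoint_left.2 fun x hx hx' => lt_asymm (mem_Iio.1 hx) (mem_Ioi.1 hx')
  have s1 : 2 * ∑ c ∈ univ.erase (⟨r, hr⟩ : Fin n),
      betaMap n α β (firstProd n (r + 1) * vandQuot k ⟨r, hr⟩ c) =
        ((n - 1 - r : ℕ) : ℝ) * aomotoValue n k r α β := by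
    rw [hsplit, sum_union hdisj, mul_add, mul_sum, mul_sum,
      sum_eq_zero (fun c hc => by
        rw [antisymmetric_zero hk hr (Fin.lt_def.1 (mem_Iio.1 hc)), mul_zero]),
      sum_congr rfl fun c hc => half_value hk hr (Fin.lt_def.1 (mem_Ioi.1 hc)), sum_const,
      Fin.card_Ioi, nsmul_eq_mul, zero_add]
  have s2 : 2 * ∑ c ∈ univ.erase (⟨r, hr⟩ : Fin n),
      betaMap n α β (X ⟨r, hr⟩ * (firstProd n (r + 1) * vandQuot k ⟨r, hr⟩ c)) =
        ((r : ℕ) + 2 * (n - 1 - r : ℕ) : ℝ) * aomotoValue n k (r + 1) α β := by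
    rw [hsplit, sum_union hdisj, mul_add, mul_sum, mul_sum,
      sum_congr rfl fun c hc => half_value_succ hk hr (Fin.lt_def.1 (mem_Iio.1 hc)),
      sum_congr (s₁ := Ioi (⟨r, hr⟩ : Fin n)) rfl fun c hc =>
        congrArg (2 * ·) (full_value_succ hk hr (Fin.lt_def.1 (mem_Ioi.1 hc))), sum_const,
      sum_const, Fin.card_Ioi, Fin.card_Iio, nsmul_eq_mul, nsmul_eq_mul]
    ring
  rw [aomotoValue] at s1
  rw [aomotoValue] at s2
  rw [aomotoValue, aomotoValue, show n - 1 = r + (n - 1 - r) by omega]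
  simp only [Nat.add_sub_cancel_left] at *
  push_cast
  linear_combination (-1 : ℝ) * h - (k : ℝ) * s2 + (k : ℝ) * s1

end FA.SelbergIntegral
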